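/-
Fermat/Agent/AV/NormD43/Alg.lean  (helper43)

Programme AV (S26/S27), brick NORMD ("Lemma D"): algebraic core.

Let `R` be an integrally closed domain with fraction field `F`, `L / F` a field extension,
`S` an `R`-algebra which is integral over `R` and maps to `L` compatibly.  Then the norm
`N_{L/F}` of the image of a unit of `S` is (the image of) a unit of `R`.
-/
import Mathlib

set_option autoImplicit false

namespace Fermat.Agent.AV.NormD43

variable {R S F L : Type*} [CommRing R] [IsDomain R] [CommRing S] [Field F] [Field L]
  [Algebra R F] [IsFractionRing R F] [IsIntegrallyClosed R]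
  [Algebra R S] [Algebra S L] [Algebra F L] [Algebra R L] [IsScalarTower R F L]
  [IsScalarTower R S L]

/-- The norm of (the image of) an element of `S` integral over `R` lies in `R`. -/
theorem exists_algebraMap_eq_norm_of_isIntegral (a : S) (ha : IsIntegral R a) :
    ∃ r : R, algebraMap R F r = Algebra.norm F (algebraMap S L a) := by
  have h1 : IsIntegral R (algebraMap S L a) := ha.map (IsScalarTower.toAlgHom R S L)
  have h2 : IsIntegral R (Algebra.norm F (algebraMap S L a)) := Algebra.isIntegral_norm F h1
  exact IsIntegrallyClosed.isIntegral_iff.mp h2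

/-- **Lemma D, algebraic core.** -/
theorem exists_unit_algebraMap_eq_norm (hint : Algebra.IsIntegral R S) (a : Sˣ) :
    ∃ r : Rˣ, algebraMap R F (r : R) = Algebra.norm F (algebraMap S L (a : S)) := by
  obtain ⟨r, hr⟩ := exists_algebraMap_eq_norm_of_isIntegral (F := F) (L := L) (a : S)
    (hint.isIntegral _)
  obtain ⟨r', hr'⟩ := exists_algebraMap_eq_norm_of_isIntegral (F := F) (L := L)
    ((a⁻¹ : Sˣ) : S) (hint.isIntegral _)
  have hmul : r * r' = 1 := by
    apply IsFractionRing.injective R F
    rw [map_mul, hr, hr', ← map_mul, ← map_mul, Units.mul_inv, map_one, map_one, map_one]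
  exact ⟨⟨r, r', hmul, by rw [mul_comm]; exact hmul⟩, hr⟩

/-- The unit of `R` whose image is the norm of a unit of `S`. -/
noncomputable def normUnit (hint : Algebra.IsIntegral R S) (a : Sˣ) : Rˣ :=
  (exists_unit_algebraMap_eq_norm (F := F) (L := L) hint a).choose

theorem algebraMap_normUnit (hint : Algebra.IsIntegral R S) (a : Sˣ) :
    algebraMap R F (normUnit (F := F) (L := L) hint a : R) =
      Algebra.norm F (algebraMap S L (a : S)) :=
  (exists_unit_algebraMap_eq_norm (F := F) (L := L) hint a).choose_spec

end Fermat.Agent.AV.NormD43
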