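/-
Fermat/Agent/AV/NormD43/FunctionField.lean  (helper43)

Programme AV (S26/S27), brick NORMD ("Lemma D"): the map of function fields induced by a dominant
morphism of integral schemes, and integrality of sections over the preimage of an affine open for
a universally closed morphism.
-/
import Mathlib

set_option autoImplicit false

open AlgebraicGeometry CategoryTheory TopologicalSpace Opposite

universe u

namespace Fermat.Agent.AV.NormD43

variable {X Y : Scheme.{u}} (f : X ⟶ Y)

/-- A dominant morphism of irreducible schemes maps the generic point to the generic point. -/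
theorem map_genericPoint [IrreducibleSpace X] [IrreducibleSpace Y] [IsDominant f] :
    f (genericPoint X) = genericPoint Y := by
  apply ((genericPoint_spec Y).eq _).symm
  have h := (genericPoint_spec X).image f.continuous
  have h2 : closure (f '' (Set.univ : Set X)) = (Set.univ : Set Y) := by
    rw [Set.image_univ]
    exact f.denseRange.closure_range
  rw [h2] at h
  exact h

/-- The generic point of `X` lies in the preimage of every nonempty open of `Y`. -/
theorem genericPoint_mem_preimage [IrreducibleSpace X] [IrreducibleSpace Y] [IsDominant f]
    (U : Y.Opens) (hU : (U : Set Y).Nonempty) : genericPoint X ∈ f ⁻¹ᵁ U := by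
  change f (genericPoint X) ∈ U
  rw [map_genericPoint f]
  exact ((genericPoint_spec Y).mem_open_set_iff U.isOpen).mpr (by simpa using hU)

theorem genericPoint_mem [IrreducibleSpace Y] (U : Y.Opens) (hU : (U : Set Y).Nonempty) :
    genericPoint Y ∈ U :=
  ((genericPoint_spec Y).mem_open_set_iff U.isOpen).mpr (by simpa using hU)

/-- The map of function fields induced by a dominant morphism of irreducible schemes. -/
noncomputable def functionFieldMap [IrreducibleSpace X] [IrreducibleSpace Y] [IsDominant f] :
    Y.functionField ⟶ X.functionField :=
  (Y.presheaf.stalkCongr (.of_eq (map_genericPoint f).symm)).hom ≫ f.stalkMap (genericPoint X)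

/-- Compatibility of `functionFieldMap` with germs. -/
theorem functionFieldMap_germ [IrreducibleSpace X] [IrreducibleSpace Y] [IsDominant f]
    (U : Y.Opens) (hU : (U : Set Y).Nonempty) (s : Γ(Y, U)) :
    functionFieldMap f (Y.presheaf.germ U (genericPoint Y) (genericPoint_mem U hU) s) =
      X.presheaf.germ (f ⁻¹ᵁ U) (genericPoint X) (genericPoint_mem_preimage f U hU)
        (f.app U s) := by
  have hx : f (genericPoint X) ∈ U := genericPoint_mem_preimage f U hU
  have h1 : Y.presheaf.germ U (genericPoint Y) (genericPoint_mem U hU) ≫
      (Y.presheaf.stalkCongr (.of_eq (map_genericPoint f).symm)).hom =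
      Y.presheaf.germ U (f (genericPoint X)) hx := by
    simp only [TopCat.Presheaf.stalkCongr]
    exact Y.presheaf.germ_stalkSpecializes _ _
  have h2 := f.germ_stalkMap U (genericPoint X) hx
  have h3 : Y.presheaf.germ U (genericPoint Y) (genericPoint_mem U hU) ≫ functionFieldMap f =
      f.app U ≫ X.presheaf.germ (f ⁻¹ᵁ U) (genericPoint X) hx := by
    rw [functionFieldMap, ← Category.assoc, h1, h2]
  exact congrArg (fun φ => φ.hom s) h3

/-- For a universally closed morphism, the sections over the preimage of an affine open are
integral over the sections over that affine open. -/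
theorem isIntegral_app_of_universallyClosed [UniversallyClosed f] (U : Y.Opens)
    (hU : IsAffineOpen U) : (f.app U).hom.IsIntegral := by
  have : IsAffine U.toScheme := hU
  have h := isIntegral_appTop_of_universallyClosed (f ∣_ U)
  rw [Scheme.Hom.appTop, morphismRestrict_app'] at h
  rw [Scheme.Hom.app_eq_appLE]
  exact (Scheme.Hom.appLE_congr f _ (Scheme.Opens.ι_image_top U)
    (by rw [Scheme.Hom.preimage_top, Scheme.Opens.ι_image_top])
    (fun φ => φ.hom.IsIntegral)).mp h

end Fermat.Agent.AV.NormD43
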