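/-
Fermat/Agent/AV/NormD43/Main.lean  (helper43)

Programme AV (S26/S27), brick NORMD: **Lemma D** (descent of triviality of a line bundle, up to
torsion, along a proper dominant morphism onto a normal integral scheme), in COCYCLE FORM.

Let `f : X ⟶ Y` be a universally closed dominant morphism of integral schemes, `Y` normal (all rings
of sections over affine opens integrally closed), and `δ = [K(X) : K(Y)]` (`degree f`; `0` if the
extension is infinite).  Let `V i` be nonempty affine opens of `Y` and `u i j ∈ Γ(Y, V i ⊓ V j)`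
(think: the transition functions of a line bundle `M` trivialised on the `V i`).  If the pulled back
cocycle `f^* u` is a coboundary on `X` (`a i = f^*(u i j) * a j`, with `a i` units on `f⁻¹(V i)`:
`f^* M` is trivial), then `u ^ δ` is a coboundary on `Y` (`M ^ δ` is trivial): `b i = u i j ^ δ * b j`
with `b i` the norm of `a i`.
-/
import Mathlib
import Fermat.Agent.AV.NormD43.Alg
import Fermat.Agent.AV.NormD43.FunctionField

set_option autoImplicit false
set_option linter.style.haveILetI false
set_option linter.unusedSectionVars false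

open AlgebraicGeometry CategoryTheory TopologicalSpace Opposite

universe u

namespace Fermat.Agent.AV.NormD43

variable {X Y : Scheme.{u}} (f : X ⟶ Y)

/-- The degree `[K(X) : K(Y)]` of a dominant morphism of integral schemes (`0` if infinite). -/
noncomputable def degree [IsIntegral X] [IsIntegral Y] [IsDominant f] : ℕ :=
  letI : Algebra Y.functionField X.functionField := (functionFieldMap f).hom.toAlgebra
  Module.finrank Y.functionField X.functionField

/-- The norm `K(X) → K(Y)` of a dominant morphism of integral schemes. -/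
noncomputable def fieldNorm [IsIntegral X] [IsIntegral Y] [IsDominant f] :
    X.functionField →* Y.functionField :=
  letI : Algebra Y.functionField X.functionField := (functionFieldMap f).hom.toAlgebra
  Algebra.norm Y.functionField

theorem fieldNorm_functionFieldMap [IsIntegral X] [IsIntegral Y] [IsDominant f]
    (x : Y.functionField) : fieldNorm f (functionFieldMap f x) = x ^ degree f := by
  letI : Algebra Y.functionField X.functionField := (functionFieldMap f).hom.toAlgebra
  exact Algebra.norm_algebraMap x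

/-- The germ at the generic point of a section over a nonempty open. -/
noncomputable abbrev ggerm (Z : Scheme.{u}) [IrreducibleSpace Z] (U : Z.Opens)
    (hU : (U : Set Z).Nonempty) : Γ(Z, U) ⟶ Z.functionField :=
  Z.presheaf.germ U (genericPoint Z) (genericPoint_mem U hU)

theorem ggerm_injective (Z : Scheme.{u}) [IsIntegral Z] (U : Z.Opens)
    (hU : (U : Set Z).Nonempty) : Function.Injective (ggerm Z U hU) :=
  germ_injective_of_isIntegral _ _ _

theorem ggerm_res (Z : Scheme.{u}) [IrreducibleSpace Z] {U U' : Z.Opens} (h : U ≤ U')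
    (hU : (U : Set Z).Nonempty) (s : Γ(Z, U')) :
    ggerm Z U hU (Z.presheaf.map (homOfLE h).op s) = ggerm Z U' (hU.mono h) s :=
  Z.presheaf.germ_res_apply (homOfLE h) (genericPoint Z) (genericPoint_mem U hU) s

/-- **Lemma D, one open.**  For a unit `a` on the preimage of a nonempty affine open `V` of the
normal scheme `Y`, the norm of `a` is a unit on `V`. -/
theorem exists_unit_ggerm_eq_fieldNorm [IsIntegral X] [IsIntegral Y] [UniversallyClosed f]
    [IsDominant f] (V : Y.Opens) (hV : IsAffineOpen V) (hne : (V : Set Y).Nonempty)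
    (hnorm : IsIntegrallyClosed Γ(Y, V)) (a : Γ(X, f ⁻¹ᵁ V)ˣ) :
    ∃ b : Γ(Y, V)ˣ, ggerm Y V hne (b : Γ(Y, V)) =
      fieldNorm f (ggerm X (f ⁻¹ᵁ V) ⟨_, genericPoint_mem_preimage f V hne⟩ (a : Γ(X, f ⁻¹ᵁ V))) := by
  have hne' : ((f ⁻¹ᵁ V : X.Opens) : Set X).Nonempty := ⟨_, genericPoint_mem_preimage f V hne⟩
  haveI : Nonempty V := hne.to_subtype
  haveI : Nonempty (f ⁻¹ᵁ V : X.Opens) := hne'.to_subtype
  letI : Algebra Y.functionField X.functionField := (functionFieldMap f).hom.toAlgebra
  letI : Algebra Γ(Y, V) Γ(X, f ⁻¹ᵁ V) := (f.app V).hom.toAlgebra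
  letI : Algebra Γ(Y, V) X.functionField :=
    ((ggerm X (f ⁻¹ᵁ V) hne').hom.comp (f.app V).hom).toAlgebra
  haveI : IsFractionRing Γ(Y, V) Y.functionField :=
    functionField_isFractionRing_of_isAffineOpen Y V hV
  haveI : IsScalarTower Γ(Y, V) Γ(X, f ⁻¹ᵁ V) X.functionField :=
    IsScalarTower.of_algebraMap_eq fun x => rfl
  haveI : IsScalarTower Γ(Y, V) Y.functionField X.functionField :=
    IsScalarTower.of_algebraMap_eq fun x => (functionFieldMap_germ f V hne x).symm
  have hint : Algebra.IsIntegral Γ(Y, V) Γ(X, f ⁻¹ᵁ V) :=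
    ⟨isIntegral_app_of_universallyClosed f V hV⟩
  obtain ⟨r, hr⟩ := exists_unit_algebraMap_eq_norm (R := Γ(Y, V)) (S := Γ(X, f ⁻¹ᵁ V))
    (F := Y.functionField) (L := X.functionField) hint a
  exact ⟨r, hr⟩

/-- **Lemma D (cocycle form).** -/
theorem exists_units_pow_degree [IsIntegral X] [IsIntegral Y] [UniversallyClosed f] [IsDominant f]
    (hnorm : ∀ V : Y.Opens, IsAffineOpen V → IsIntegrallyClosed Γ(Y, V))
    {ι : Type*} (V : ι → Y.Opens) (hV : ∀ i, IsAffineOpen (V i))
    (hne : ∀ i, ((V i : Y.Opens) : Set Y).Nonempty)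
    (u : ∀ i j, Γ(Y, V i ⊓ V j))
    (a : ∀ i, Γ(X, f ⁻¹ᵁ V i)ˣ)
    (ha : ∀ i j,
      X.presheaf.map (homOfLE (f.preimage_mono (inf_le_left : V i ⊓ V j ≤ V i))).op
          (a i : Γ(X, f ⁻¹ᵁ V i)) =
        f.app (V i ⊓ V j) (u i j) *
          X.presheaf.map (homOfLE (f.preimage_mono (inf_le_right : V i ⊓ V j ≤ V j))).op
            (a j : Γ(X, f ⁻¹ᵁ V j))) :
    ∃ b : ∀ i, Γ(Y, V i)ˣ, ∀ i j,
      Y.presheaf.map (homOfLE (inf_le_left : V i ⊓ V j ≤ V i)).op (b i : Γ(Y, V i)) =
        u i j ^ degree f *
          Y.presheaf.map (homOfLE (inf_le_right : V i ⊓ V j ≤ V j)).op (b j : Γ(Y, V j)) := by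
  choose b hb using fun i =>
    exists_unit_ggerm_eq_fieldNorm f (V i) (hV i) (hne i) (hnorm _ (hV i)) (a i)
  refine ⟨b, fun i j => ?_⟩
  -- the intersection of two nonempty opens of the irreducible space `Y` is nonempty
  have hij : ((V i ⊓ V j : Y.Opens) : Set Y).Nonempty :=
    ⟨genericPoint Y, genericPoint_mem (V i) (hne i), genericPoint_mem (V j) (hne j)⟩
  have hij' : ((f ⁻¹ᵁ (V i ⊓ V j) : X.Opens) : Set X).Nonempty :=
    ⟨_, genericPoint_mem_preimage f _ hij⟩
  apply ggerm_injective Y _ hij
  rw [map_mul, map_pow, ggerm_res Y inf_le_left hij, ggerm_res Y inf_le_right hij, hb i, hb j]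
  -- apply the norm to the germ of `ha i j`
  have h := congrArg (fun s => fieldNorm f (ggerm X _ hij' s)) (ha i j)
  simp only [map_mul] at h
  rw [ggerm_res X (f.preimage_mono inf_le_left) hij', ggerm_res X (f.preimage_mono inf_le_right) hij',
    ← functionFieldMap_germ f _ hij, fieldNorm_functionFieldMap] at h
  exact h

end Fermat.Agent.AV.NormD43
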